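import Mathlib
import Fermat.Prelude.Def_ModularCurve_LaurentCoeff

/-!
# S37 / RI-R, leaf C3 (generic part): Galois descent of integrality for Laurent series

Generic lemmas (Mathlib + the Prelude `coeffMap`/`coeffEmb`/`laurentBaseChange` API only):

* `mem_span_range_of_mem_closure`: a compositum `L · K` of fields with `L` integral over `K`
  is the `L`-span of `K`;
* `eq_zero_of_forall_sum_eq_zero`, `exists_finsupp_dual`: Artin-type independence — for
  `K`-independent `e₁ … e_m ∈ L` (`L/K` with fixed field `K`) the vectors `(σ e_l)_l`,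
  `σ ∈ Aut(L/K)`, span `L^m`;
* `isIntegral_of_isIntegral_subalgebra`: transitivity of integrality through a subalgebra;
* `exists_indep_repr`: rewriting an `L`-combination with `ℚ`-independent coefficients;
* `mem_span_image_isIntegral`: **the descent theorem** — if `x ∈ L · F₀ ⊆ L((q))`
  (`F₀ ⊆ ℚ((q))` a field, `L/ℚ` algebraic Galois) is integral over `L[S]`, `S ⊆ F₀`, then `x` is
  an `L`-combination of elements of `F₀` that are integral over `ℚ[S]`.
-/

set_option autoImplicit false

noncomputable section

namespace Fermat.Agent.S37.RIR.GN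

open ModularCurve

/-! ### Step 1a: the compositum is a span -/

/-- If `L` (acting on the field `B` through `i`) is integral over the field `K`, then the
compositum of `L` and `K` in `B` is the `L`-span of `K`.  (The module structure of `B` over `L`
is kept separate from `i` because of the instance diamond on `LaurentSeries`.) -/
theorem mem_span_range_of_mem_closure {K L B : Type*} [Field K] [Field L] [Field B]
    [Algebra K B] [Module L B] (i : L →+* B) (hsmul : ∀ (c : L) (y : B), c • y = i c * y)
    (halg : ∀ c : L, IsIntegral K (i c))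
    {x : B}
    (hx : x ∈ Subfield.closure (Set.range i ∪ Set.range (algebraMap K B))) :
    x ∈ Submodule.span L (Set.range (algebraMap K B)) := by
  classical
  let E : Subalgebra K B := Algebra.adjoin K (Set.range i)
  have hEint : ∀ y ∈ E, IsIntegral K y := by
    intro y hy
    have hle : E ≤ integralClosure K B :=
      Algebra.adjoin_le (by rintro _ ⟨c, rfl⟩; exact halg c)
    exact hle hy
  have hEinv : ∀ y ∈ E, y⁻¹ ∈ E := by
    intro y hy
    exact E.inv_mem_of_algebraic (x := ⟨y, hy⟩) (hEint y hy).isAlgebraic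
  let E' : Subfield B := { E.toSubring with inv_mem' := hEinv }
  have hxE : x ∈ E := by
    have hle : Subfield.closure (Set.range i ∪ Set.range (algebraMap K B)) ≤ E' := by
      rw [Subfield.closure_le]
      rintro y (⟨c, rfl⟩ | ⟨g, rfl⟩)
      · exact Algebra.subset_adjoin ⟨c, rfl⟩
      · exact E.algebraMap_mem g
    exact hle hx
  have hspan : Subalgebra.toSubmodule E = Submodule.span K (Set.range i) := by
    have h1 : Submonoid.closure (Set.range i) = MonoidHom.mrange (i : L →* B) := by
      rw [← MonoidHom.coe_mrange]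
      exact Submonoid.closure_eq _
    rw [Algebra.adjoin_eq_span, h1]
    rfl
  have hx' : x ∈ Submodule.span K (Set.range i) := by
    rw [← hspan]; exact hxE
  have hmul : ∀ (g : K) (y : B), y ∈ Submodule.span L (Set.range (algebraMap K B)) →
      algebraMap K B g * y ∈ Submodule.span L (Set.range (algebraMap K B)) := by
    intro g y hy
    induction hy using Submodule.span_induction with
    | mem y hy =>
      obtain ⟨g', rfl⟩ := hy
      rw [← map_mul]
      exact Submodule.subset_span ⟨_, rfl⟩
    | zero => rw [mul_zero]; exact zero_mem _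
    | add y z _ _ hy hz => rw [mul_add]; exact add_mem hy hz
    | smul c y _ hy =>
      have h1 : algebraMap K B g * c • y = c • (algebraMap K B g * y) := by
        rw [hsmul, hsmul]; ring
      rw [h1]
      exact Submodule.smul_mem _ c hy
  have key : ∀ y ∈ Submodule.span K (Set.range i),
      y ∈ Submodule.span L (Set.range (algebraMap K B)) := by
    intro y hy
    induction hy using Submodule.span_induction with
    | mem y hy =>
      obtain ⟨c, rfl⟩ := hy
      have h1 : i c = c • algebraMap K B 1 := by
        rw [map_one, hsmul, mul_one]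
      rw [h1]
      exact Submodule.smul_mem _ c (Submodule.subset_span ⟨1, rfl⟩)
    | zero => exact zero_mem _
    | add y z _ _ hy hz => exact add_mem hy hz
    | smul g y _ hy => rw [Algebra.smul_def]; exact hmul g y hy
  exact key x hx'

/-! ### Artin-type independence -/

theorem eq_zero_of_forall_sum_eq_zero {K L : Type*} [Field K] [Field L] [Algebra K L]
    (hfix : ∀ x : L, (∀ σ : L ≃ₐ[K] L, σ x = x) → x ∈ Set.range (algebraMap K L))
    {ι : Type*} [Fintype ι] (e : ι → L) (he : LinearIndependent K e) :
    ∀ lam : ι → L, (∀ σ : L ≃ₐ[K] L, ∑ l, lam l * σ (e l) = 0) → lam = 0 := by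
  classical
  suffices H : ∀ (n : ℕ) (lam : ι → L), (Finset.univ.filter (fun l => lam l ≠ 0)).card = n →
      (∀ σ : L ≃ₐ[K] L, ∑ l, lam l * σ (e l) = 0) → lam = 0 from
    fun lam hlam => H _ lam rfl hlam
  intro n
  induction n using Nat.strong_induction_on with
  | _ n ih =>
    intro lam hn hrel
    by_contra hne
    obtain ⟨l0, hl0⟩ : ∃ l0, lam l0 ≠ 0 := by
      by_contra hcon
      exact hne (funext fun l => by_contra fun hl => hcon ⟨l, hl⟩)
    let mu : ι → L := fun l => lam l / lam l0
    have hmu0 : mu l0 = 1 := div_self hl0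
    have hmurel : ∀ σ : L ≃ₐ[K] L, ∑ l, mu l * σ (e l) = 0 := by
      intro σ
      have h1 : ∑ l, mu l * σ (e l) = (∑ l, lam l * σ (e l)) / lam l0 := by
        rw [Finset.sum_div]
        exact Finset.sum_congr rfl fun l _ => by simp only [mu]; ring
      rw [h1, hrel σ, zero_div]
    have hfixmu : ∀ (τ : L ≃ₐ[K] L) (l : ι), τ (mu l) = mu l := by
      intro τ
      let nu : ι → L := fun l => τ (mu l) - mu l
      have hnurel : ∀ σ : L ≃ₐ[K] L, ∑ l, nu l * σ (e l) = 0 := by
        intro σ
        have h2 : ∑ l, τ (mu l) * σ (e l) = 0 := by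
          have h3 := congrArg τ (hmurel (σ.trans τ.symm))
          rw [map_sum, map_zero] at h3
          rw [← h3]
          refine Finset.sum_congr rfl fun l _ => ?_
          rw [map_mul, AlgEquiv.trans_apply, AlgEquiv.apply_symm_apply]
        have h4 : ∑ l, nu l * σ (e l) = ∑ l, τ (mu l) * σ (e l) - ∑ l, mu l * σ (e l) := by
          rw [← Finset.sum_sub_distrib]
          exact Finset.sum_congr rfl fun l _ => by simp only [nu]; ring
        rw [h4, h2, hmurel σ, sub_zero]
      have hcard : (Finset.univ.filter (fun l => nu l ≠ 0)).card < n := by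
        rw [← hn]
        apply Finset.card_lt_card
        rw [Finset.ssubset_iff_of_subset]
        · refine ⟨l0, by simp [hl0], ?_⟩
          simp only [Finset.mem_filter, Finset.mem_univ, true_and, not_not, nu]
          rw [hmu0, map_one, sub_self]
        · intro l hl
          simp only [Finset.mem_filter, Finset.mem_univ, true_and] at hl ⊢
          intro hlam
          apply hl
          have h0 : mu l = 0 := by simp only [mu, hlam, zero_div]
          simp only [nu, h0, map_zero, sub_zero]
      have hnu := ih _ hcard nu rfl hnurel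
      intro l
      have := congrFun hnu l
      simpa only [nu, Pi.zero_apply, sub_eq_zero] using this
    choose a ha using fun l => hfix (mu l) (fun σ => hfixmu σ l)
    have hsum : ∑ l, a l • e l = 0 := by
      have h1 := hmurel AlgEquiv.refl
      rw [← h1]
      refine Finset.sum_congr rfl fun l _ => ?_
      rw [Algebra.smul_def, ha l, AlgEquiv.coe_refl, id]
    have ha0 := Fintype.linearIndependent_iff.mp he a hsum l0
    have h1 : mu l0 = 0 := by rw [← ha l0, ha0, map_zero]
    rw [hmu0] at h1
    exact one_ne_zero h1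

theorem exists_finsupp_dual {K L : Type*} [Field K] [Field L] [Algebra K L]
    (hfix : ∀ x : L, (∀ σ : L ≃ₐ[K] L, σ x = x) → x ∈ Set.range (algebraMap K L))
    {ι : Type*} [Fintype ι] [DecidableEq ι] (e : ι → L) (he : LinearIndependent K e) (k : ι) :
    ∃ c : (L ≃ₐ[K] L) →₀ L, ∀ l, (∑ σ ∈ c.support, c σ * σ (e l)) = if k = l then 1 else 0 := by
  classical
  let v : (L ≃ₐ[K] L) → (ι → L) := fun σ l => σ (e l)
  have htop : Submodule.span L (Set.range v) = ⊤ := by
    by_contra hne
    obtain ⟨f, hf0, hf⟩ := Submodule.exists_le_ker_of_lt_top _ (lt_top_iff_ne_top.mpr hne)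
    apply hf0
    have hlam : (fun l => f (fun j => if l = j then 1 else 0)) = (0 : ι → L) := by
      apply eq_zero_of_forall_sum_eq_zero hfix e he
      intro σ
      have h1 : f (v σ) = 0 := hf (Submodule.subset_span ⟨σ, rfl⟩)
      rw [LinearMap.pi_apply_eq_sum_univ] at h1
      have h2 : ∑ l, (f fun j => if l = j then 1 else 0) * σ (e l) =
          ∑ i, v σ i • f fun j => if i = j then 1 else 0 :=
        Finset.sum_congr rfl fun l _ => by rw [smul_eq_mul, mul_comm]
      exact h2.trans h1
    refine LinearMap.ext fun x => ?_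
    rw [LinearMap.pi_apply_eq_sum_univ, LinearMap.zero_apply]
    refine Finset.sum_eq_zero fun l _ => ?_
    have := congrFun hlam l
    simp only [Pi.zero_apply] at this
    rw [this, smul_zero]
  have hk : (fun l => if k = l then (1 : L) else 0) ∈ Submodule.span L (Set.range v) := by
    rw [htop]; exact Submodule.mem_top
  obtain ⟨c, hc⟩ := Finsupp.mem_span_range_iff_exists_finsupp.mp hk
  refine ⟨c, fun l => ?_⟩
  have := congrFun hc l
  rw [Finsupp.sum, Finset.sum_apply] at this
  rw [← this]
  exact Finset.sum_congr rfl fun σ _ => rfl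

/-! ### Transitivity of integrality through a subalgebra -/

theorem isIntegral_of_isIntegral_subalgebra {R L B : Type*} [CommRing R] [CommRing L] [CommRing B]
    [Algebra R B] [Algebra L B] (T : Subalgebra L B)
    (hT : ∀ y ∈ T, IsIntegral R y) {x : B} (hx : IsIntegral T x) : IsIntegral R x := by
  let φ : T →+* integralClosure R B :=
    { toFun := fun y => ⟨y.1, hT y.1 y.2⟩
      map_one' := rfl
      map_mul' := fun _ _ => rfl
      map_zero' := rfl
      map_add' := fun _ _ => rfl }
  have h1 : IsIntegral (integralClosure R B) x := by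
    have := hx.map_of_comp_eq φ (RingHom.id B) (by ext y; rfl)
    simpa using this
  have h2 : x ∈ integralClosure (integralClosure R B) B := h1
  rw [integralClosure_idem, Algebra.mem_bot] at h2
  obtain ⟨y, rfl⟩ := h2
  exact y.2

/-! ### Rewriting a combination with `ℚ`-independent coefficients -/

theorem exists_indep_repr {L V K : Type*} [Field L] [Algebra ℚ L] [AddCommGroup V] [Module L V]
    [AddCommGroup K] [Module ℚ K] (emb : K →+ V)
    (hemb : ∀ (r : ℚ) (h : K), emb (r • h) = (algebraMap ℚ L r) • emb h)
    {x : V} (hx : x ∈ Submodule.span L (Set.range emb)) :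
    ∃ (m : ℕ) (e : Fin m → L) (g : Fin m → K), LinearIndependent ℚ e ∧
      x = ∑ l, e l • emb (g l) := by
  classical
  obtain ⟨c, rfl⟩ := Finsupp.mem_span_range_iff_exists_finsupp.mp hx
  let V₀ : Submodule ℚ L := Submodule.span ℚ ((fun h => c h) '' (c.support : Set K))
  have hfin : Module.Finite ℚ V₀ :=
    Module.Finite.span_of_finite ℚ ((c.support.finite_toSet).image _)
  let b := Module.finBasis ℚ V₀
  have hmem : ∀ h ∈ c.support, c h ∈ V₀ := fun h hh =>
    Submodule.subset_span ⟨h, hh, rfl⟩
  let r : K → Fin (Module.finrank ℚ V₀) → ℚ := fun h l =>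
    if hh : h ∈ c.support then b.repr ⟨c h, hmem h hh⟩ l else 0
  refine ⟨Module.finrank ℚ V₀, fun l => (b l : L), fun l => ∑ h ∈ c.support, r h l • h, ?_, ?_⟩
  · have := b.linearIndependent.map' V₀.subtype (Submodule.ker_subtype V₀)
    exact this
  · have hc : ∀ h ∈ c.support, c h = ∑ l, r h l • (b l : L) := by
      intro h hh
      have h1 := b.sum_repr ⟨c h, hmem h hh⟩
      have h2 := congrArg (V₀.subtype) h1
      rw [map_sum] at h2
      simp only [map_smul, Submodule.subtype_apply] at h2
      rw [← h2]
      refine Finset.sum_congr rfl fun l _ => ?_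
      simp only [r, dif_pos hh]
    rw [Finsupp.sum]
    calc ∑ h ∈ c.support, c h • emb h
        = ∑ h ∈ c.support, ∑ l, (b l : L) • emb (r h l • h) := by
          refine Finset.sum_congr rfl fun h hh => ?_
          conv_lhs => rw [hc h hh]
          rw [Finset.sum_smul]
          refine Finset.sum_congr rfl fun l _ => ?_
          rw [hemb, smul_smul, Algebra.smul_def, mul_comm]
      _ = ∑ l, ∑ h ∈ c.support, (b l : L) • emb (r h l • h) := Finset.sum_comm
      _ = ∑ l, (b l : L) • emb (∑ h ∈ c.support, r h l • h) := by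
          refine Finset.sum_congr rfl fun l _ => ?_
          rw [map_sum, Finset.smul_sum]

/-! ### The descent theorem -/

section Descent

variable {L : Type*} [Field L]

theorem smul_eq_algebraMap_mul (c : L) (y : LaurentSeries L) :
    c • y = algebraMap L (LaurentSeries L) c * y := by
  rw [algebraMap_laurentSeries_eq_single, HahnSeries.single_zero_mul_eq_smul]

theorem coeffMap_smul_const (σ : L →+* L) (c : L) (y : LaurentSeries L) :
    coeffMap σ (c • y) = σ c • coeffMap σ y := by
  rw [smul_eq_algebraMap_mul, map_mul, coeffMap_algebraMap, ← smul_eq_algebraMap_mul]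

variable [Algebra ℚ L]

/-- **Galois descent of integrality.**  Let `F₀ ⊆ ℚ((q))` be a field, `S ⊆ F₀`, and `L/ℚ` an
algebraic extension whose automorphism group has fixed field `ℚ`.  If `x ∈ L · F₀ ⊆ L((q))` is
integral over `L[S]`, then `x` is an `L`-linear combination of elements of `F₀` integral over
`ℚ[S]`. -/
theorem mem_span_image_isIntegral [Algebra.IsAlgebraic ℚ L]
    (hfix : ∀ x : L, (∀ σ : L ≃ₐ[ℚ] L, σ x = x) → x ∈ Set.range (algebraMap ℚ L))
    (F₀ : IntermediateField ℚ (LaurentSeries ℚ)) (S : Set ↥F₀)
    {x : LaurentSeries L} (hx : x ∈ laurentBaseChange L F₀)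
    (hint : IsIntegral (Algebra.adjoin L
      ((fun s : ↥F₀ => coeffEmb L (s : LaurentSeries ℚ)) '' S)) x) :
    x ∈ Submodule.span L ((fun g : ↥F₀ => coeffEmb L (g : LaurentSeries ℚ)) ''
      {g : ↥F₀ | IsIntegral (Algebra.adjoin ℚ S) g}) := by
  classical
  let embR : ↥F₀ →+* LaurentSeries L := (coeffEmb L).comp (algebraMap ↥F₀ (LaurentSeries ℚ))
  let algK : Algebra ↥F₀ (LaurentSeries L) := embR.toAlgebra
  let R₀ : Subalgebra ℚ ↥F₀ := Algebra.adjoin ℚ S
  have hLint : ∀ c : L, IsIntegral ℚ c := fun c => Algebra.IsIntegral.isIntegral c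
  -- constants are integral over `F₀` and over `R₀`
  have halgK : ∀ c : L, IsIntegral ↥F₀ (algebraMap L (LaurentSeries L) c) := fun c =>
    (hLint c).map_of_comp_eq (algebraMap ℚ ↥F₀) (algebraMap L (LaurentSeries L))
      (RingHom.ext_rat _ _)
  have halgR : ∀ c : L, IsIntegral R₀ (algebraMap L (LaurentSeries L) c) := fun c =>
    (hLint c).map_of_comp_eq (algebraMap ℚ R₀) (algebraMap L (LaurentSeries L))
      (RingHom.ext_rat _ _)
  -- Step 1a: `x` is an `L`-combination of elements of `F₀`
  have hx1 : x ∈ Submodule.span L (Set.range (algebraMap ↥F₀ (LaurentSeries L))) := by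
    refine mem_span_range_of_mem_closure (algebraMap L (LaurentSeries L))
      smul_eq_algebraMap_mul halgK ?_
    rw [mem_laurentBaseChange_iff] at hx
    have hset : (⇑(coeffEmb L) '' (F₀ : Set (LaurentSeries ℚ))) =
        Set.range (algebraMap ↥F₀ (LaurentSeries L)) := by
      ext y
      constructor
      · rintro ⟨z, hz, rfl⟩
        exact ⟨⟨z, hz⟩, rfl⟩
      · rintro ⟨g, rfl⟩
        exact ⟨g, g.2, rfl⟩
    rw [hset] at hx
    exact hx
  -- Step 3: `x` is integral over `R₀ = ℚ[S]`
  have hxR : IsIntegral R₀ x := by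
    refine isIntegral_of_isIntegral_subalgebra _ ?_ hint
    intro y hy
    induction hy using Algebra.adjoin_induction with
    | mem y hy =>
      obtain ⟨s, hs, rfl⟩ := hy
      exact isIntegral_algebraMap (R := R₀) (x := (⟨s, Algebra.subset_adjoin hs⟩ : R₀))
    | algebraMap c => exact halgR c
    | add y z _ _ hy hz => exact hy.add hz
    | mul y z _ _ hy hz => exact hy.mul hz
  -- Step 1b: independent coefficients
  have hembQ : ∀ (r : ℚ) (h : ↥F₀), (embR : ↥F₀ →+ LaurentSeries L) (r • h) =
      (algebraMap ℚ L r) • (embR : ↥F₀ →+ LaurentSeries L) h := by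
    intro r h
    have h1 : embR (algebraMap ℚ ↥F₀ r) = algebraMap L (LaurentSeries L) (algebraMap ℚ L r) :=
      RingHom.congr_fun (RingHom.ext_rat (embR.comp (algebraMap ℚ ↥F₀))
        ((algebraMap L (LaurentSeries L)).comp (algebraMap ℚ L))) r
    show embR (r • h) = (algebraMap ℚ L r) • embR h
    rw [Algebra.smul_def, map_mul, h1, smul_eq_algebraMap_mul]
  have hx2 : x ∈ Submodule.span L (Set.range (embR : ↥F₀ →+ LaurentSeries L)) := hx1
  obtain ⟨m, e, g, he, hxe⟩ := exists_indep_repr (embR : ↥F₀ →+ LaurentSeries L) hembQ hx2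
  have hxe' : x = ∑ l, e l • coeffEmb L ((g l : ↥F₀) : LaurentSeries ℚ) := hxe
  -- Galois conjugates
  have hconj : ∀ σ : L ≃ₐ[ℚ] L, coeffMap (σ : L →+* L) x =
      ∑ l, σ (e l) • coeffEmb L ((g l : ↥F₀) : LaurentSeries ℚ) := by
    intro σ
    rw [hxe', map_sum]
    refine Finset.sum_congr rfl fun l _ => ?_
    rw [coeffMap_smul_const, coeffMap_coeffEmb]
    rfl
  have hconjint : ∀ σ : L ≃ₐ[ℚ] L, IsIntegral R₀ (coeffMap (σ : L →+* L) x) := by
    intro σ
    refine hxR.map_of_comp_eq (RingHom.id R₀) (coeffMap (σ : L →+* L)) ?_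
    ext r : 1
    exact (coeffMap_coeffEmb σ _).symm
  -- each `g k` is integral over `R₀`
  have hg : ∀ k, IsIntegral R₀ (g k) := by
    intro k
    obtain ⟨c, hc⟩ := exists_finsupp_dual hfix e he k
    have h1 : coeffEmb L ((g k : ↥F₀) : LaurentSeries ℚ) =
        ∑ σ ∈ c.support, c σ • coeffMap ((σ : L ≃ₐ[ℚ] L) : L →+* L) x := by
      have h2 : ∀ σ ∈ c.support, c σ • coeffMap ((σ : L ≃ₐ[ℚ] L) : L →+* L) x =
          ∑ l, (c σ * σ (e l)) • coeffEmb L ((g l : ↥F₀) : LaurentSeries ℚ) := by
        intro σ _
        rw [hconj σ, Finset.smul_sum]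
        exact Finset.sum_congr rfl fun l _ => by rw [smul_smul]
      rw [Finset.sum_congr rfl h2, Finset.sum_comm]
      have h3 : ∀ l, ∑ σ ∈ c.support, (c σ * σ (e l)) •
          coeffEmb L ((g l : ↥F₀) : LaurentSeries ℚ) =
          (if k = l then (1 : L) else 0) • coeffEmb L ((g l : ↥F₀) : LaurentSeries ℚ) := by
        intro l
        rw [← Finset.sum_smul, hc l]
      rw [Finset.sum_congr rfl fun l _ => h3 l]
      simp
    have h4 : IsIntegral R₀ (coeffEmb L ((g k : ↥F₀) : LaurentSeries ℚ)) := by
      rw [h1]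
      refine IsIntegral.sum _ fun σ _ => ?_
      rw [smul_eq_algebraMap_mul]
      exact (halgR (c σ)).mul (hconjint σ)
    obtain ⟨p, hp, hpx⟩ := h4
    refine ⟨p, hp, ?_⟩
    have h5 : embR (Polynomial.eval₂ (algebraMap R₀ ↥F₀) (g k) p) = 0 := by
      rw [Polynomial.hom_eval₂]
      exact hpx
    exact (map_eq_zero embR).mp h5
  rw [hxe']
  refine Submodule.sum_mem _ fun l _ => Submodule.smul_mem _ _ (Submodule.subset_span ?_)
  exact ⟨g l, hg l, rfl⟩

end Descent

end Fermat.Agent.S37.RIR.GN
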