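import Mathlib
import Fermat.Prelude.Def_ModularCurve_IgusaScheme
import Fermat.Prelude.Def_ModularCurve_ArithmeticGalois
import Fermat.Agent.S37.RIR.GNDescent

/-!
# S37 / RI-R, leaf C3: generic-fibre normality of the integral charts

`F = ℚ(X₀(N)) = modularFunctionFieldFull N ⊆ ℚ((q))`, `chartAlg N ℓ S` = integral closure of
`ℤ_(ℓ)[S]` in `F` (Prelude), `modularFunctionFieldBar N = ℚ̄ · F ⊆ ℚ̄((q))`.

Main result (`mem_span_chartAlg_of_isIntegral`): every `x ∈ modularFunctionFieldBar N` that is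
integral over `ℚ̄[S]` (`S ⊆ F` arbitrary, e.g. `{j}`, `{1/j}`, `{j, 1/j}`) lies in the `ℚ̄`-span
of (the `q`-expansions of) `chartAlg N ℓ S`.  In other words the generic fibre of the chart
`chartAlg N ℓ S ⊗ ℚ̄` is the full integral closure of `ℚ̄[S]` in `ℚ̄(X₀(N))`: it is normal.

Proof: Galois descent of integrality (`GNDescent.lean`) + clearing denominators.
No hypothesis on `ℓ` or `N`.  Mathlib + Prelude only.
-/

set_option autoImplicit false

noncomputable section

namespace Fermat.Agent.S37.RIR.GN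

open ModularCurve ModularCurve.IgusaScheme Polynomial

variable (N : ℕ) [NeZero N] (ℓ : ℕ) [Fact ℓ.Prime]

set_option quotPrecheck false in

local notation "ℤℓ" => ↥(GaloisRep.ratLocalizedAt ℓ)

set_option quotPrecheck false in

local notation "F" => ↥(modularFunctionFieldFull N)

local notation "Q̄" => AlgebraicClosure ℚ

/-! ### Clearing denominators -/

omit [NeZero N] [Fact ℓ.Prime] in
theorem exists_natCast_mul_mem_adjoin {S : Set F} {a : F} (ha : a ∈ Algebra.adjoin ℚ S) :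
    ∃ M : ℕ, M ≠ 0 ∧ (M : F) * a ∈ Algebra.adjoin ℤℓ S := by
  induction ha using Algebra.adjoin_induction with
  | mem y hy =>
    exact ⟨1, one_ne_zero, by rw [Nat.cast_one, one_mul]; exact Algebra.subset_adjoin hy⟩
  | algebraMap q =>
    refine ⟨q.den, q.den_ne_zero, ?_⟩
    have h1 : ((q.den : ℕ) : F) * algebraMap ℚ F q = ((q.num : ℤ) : F) := by
      have h2 : ((q.den : ℕ) : F) = algebraMap ℚ F (q.den : ℚ) := by rw [map_natCast]
      rw [h2, ← map_mul, mul_comm, Rat.mul_den_eq_num, map_intCast]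
    rw [h1]
    exact intCast_mem _ _
  | add y z _ _ hy hz =>
    obtain ⟨m, hm0, hm⟩ := hy
    obtain ⟨n, hn0, hn⟩ := hz
    refine ⟨m * n, mul_ne_zero hm0 hn0, ?_⟩
    have h1 : ((m * n : ℕ) : F) * (y + z) =
        (n : F) * ((m : F) * y) + (m : F) * ((n : F) * z) := by
      push_cast; ring
    rw [h1]
    exact add_mem (mul_mem (natCast_mem _ n) hm) (mul_mem (natCast_mem _ m) hn)
  | mul y z _ _ hy hz =>
    obtain ⟨m, hm0, hm⟩ := hy
    obtain ⟨n, hn0, hn⟩ := hz
    refine ⟨m * n, mul_ne_zero hm0 hn0, ?_⟩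
    have h1 : ((m * n : ℕ) : F) * (y * z) = ((m : F) * y) * ((n : F) * z) := by
      push_cast; ring
    rw [h1]
    exact mul_mem hm hn

/-- An element of `F` integral over `ℚ[S]` has a nonzero integer multiple in the chart algebra
(the integral closure of `ℤ_(ℓ)[S]`). -/
theorem exists_natCast_mul_mem_chartAlg {S : Set F} {g : F}
    (hg : IsIntegral (Algebra.adjoin ℚ S) g) :
    ∃ M : ℕ, M ≠ 0 ∧ (M : F) * g ∈ chartAlg N ℓ S := by
  classical
  obtain ⟨p, hmonic, hroot⟩ := hg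
  have hcoeff : ∀ i, ∃ n : ℕ, n ≠ 0 ∧ (n : F) * (p.coeff i : F) ∈ Algebra.adjoin ℤℓ S :=
    fun i => exists_natCast_mul_mem_adjoin N ℓ (p.coeff i).2
  choose n hn0 hn using hcoeff
  set M : ℕ := ∏ i ∈ Finset.range (p.natDegree + 1), n i with hM
  have hM0 : M ≠ 0 := Finset.prod_ne_zero_iff.mpr fun i _ => hn0 i
  have hMmem : (M : F) ∈ Algebra.adjoin ℤℓ S := natCast_mem _ M
  have hMcoeff : ∀ i, (p.coeff i : F) * (M : F) ∈ Algebra.adjoin ℤℓ S := by
    intro i
    by_cases hi : i ≤ p.natDegree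
    · have h1 : M = (∏ j ∈ (Finset.range (p.natDegree + 1)).erase i, n j) * n i := by
        rw [hM, Finset.prod_erase_mul _ _ (Finset.mem_range.mpr (Nat.lt_succ_of_le hi))]
      rw [mul_comm, h1, Nat.cast_mul, mul_assoc]
      exact mul_mem (natCast_mem _ _) (hn i)
    · rw [Polynomial.coeff_eq_zero_of_natDegree_lt (not_le.mp hi)]
      simp
  set q : F[X] := (p.map (algebraMap (Algebra.adjoin ℚ S) F)).scaleRoots (M : F) with hq
  have hqmonic : q.Monic := (Polynomial.monic_scaleRoots_iff _).mpr (hmonic.map _)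
  have hqroot : q.eval ((M : F) * g) = 0 := by
    rw [hq, Polynomial.scaleRoots_eval_mul, Polynomial.eval_map, hroot, mul_zero]
  have hqcoeff : ∀ i, q.coeff i ∈ Algebra.adjoin ℤℓ S := by
    intro i
    rw [hq, Polynomial.coeff_scaleRoots, Polynomial.coeff_map, hmonic.natDegree_map]
    by_cases hi : i < p.natDegree
    · obtain ⟨k, hk⟩ : ∃ k, p.natDegree - i = k + 1 := ⟨p.natDegree - i - 1, by omega⟩
      rw [hk, pow_succ', ← mul_assoc, Subalgebra.algebraMap_def, Algebra.algebraMap_self_apply]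
      exact mul_mem (hMcoeff i) (pow_mem hMmem k)
    · rcases (not_lt.mp hi).lt_or_eq with hlt | heq
      · rw [Polynomial.coeff_eq_zero_of_natDegree_lt hlt, map_zero, zero_mul]
        exact zero_mem _
      · rw [← heq, hmonic.coeff_natDegree, map_one, one_mul, Nat.sub_self, pow_zero]
        exact one_mem _
  have hlifts : q ∈ Polynomial.lifts (algebraMap (Algebra.adjoin ℤℓ S) F) :=
    (Polynomial.lifts_iff_coeff_lifts q).mpr fun i => ⟨⟨q.coeff i, hqcoeff i⟩, rfl⟩
  obtain ⟨q', hq'q, -, hq'monic⟩ := Polynomial.lifts_and_natDegree_eq_and_monic hlifts hqmonic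
  refine ⟨M, hM0, (mem_chartAlg_iff N ℓ).mpr ⟨q', hq'monic, ?_⟩⟩
  rw [Polynomial.eval₂_eq_eval_map, hq'q, hqroot]

/-! ### `ℚ̄/ℚ` -/

theorem isAlgebraic_Qbar : Algebra.IsAlgebraic ℚ Q̄ := AlgebraicClosure.isAlgebraic ℚ

theorem mem_range_of_fixed_Qbar (x : Q̄) (h : ∀ σ : Q̄ ≃ₐ[ℚ] Q̄, σ x = x) :
    x ∈ Set.range (algebraMap ℚ Q̄) := by
  have : IsAlgClosure ℚ Q̄ := AlgebraicClosure.instIsAlgClosure ℚ
  have : IsGalois ℚ Q̄ := IsAlgClosure.isGalois ℚ Q̄
  exact (InfiniteGalois.mem_range_algebraMap_iff_fixed x).mpr h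

/-! ### The theorem -/

/-- **C3, span form (generic-fibre normality of the charts).**  Every element of
`ℚ̄(X₀(N)) = modularFunctionFieldBar N` integral over `ℚ̄[S]` lies in the `ℚ̄`-span of the chart
algebra `chartAlg N ℓ S` (the integral closure of `ℤ_(ℓ)[S]` in `ℚ(X₀(N))`). -/
theorem mem_span_chartAlg_of_isIntegral (S : Set F) {x : LaurentSeries Q̄}
    (hx : x ∈ modularFunctionFieldBar N)
    (hint : IsIntegral (Algebra.adjoin Q̄
      ((fun s : F => coeffEmb Q̄ (s : LaurentSeries ℚ)) '' S)) x) :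
    x ∈ Submodule.span Q̄ (Set.range fun y : chartAlg N ℓ S =>
      coeffEmb Q̄ ((y : F) : LaurentSeries ℚ)) := by
  have := isAlgebraic_Qbar
  have h1 := mem_span_image_isIntegral (L := Q̄) mem_range_of_fixed_Qbar
    (modularFunctionFieldFull N) S hx hint
  refine Submodule.span_le.mpr ?_ h1
  rintro _ ⟨g, hg, rfl⟩
  obtain ⟨M, hM0, hM⟩ := exists_natCast_mul_mem_chartAlg N ℓ hg
  have hM0' : (M : Q̄) ≠ 0 := Nat.cast_ne_zero.mpr hM0
  have h2 : coeffEmb Q̄ ((g : F) : LaurentSeries ℚ) =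
      ((M : Q̄)⁻¹) • coeffEmb Q̄ ((((M : F) * g : F)) : LaurentSeries ℚ) := by
    have h3 : (((M : F) * g : F) : LaurentSeries ℚ) = (M : LaurentSeries ℚ) * (g : LaurentSeries ℚ) := by
      push_cast; rfl
    have h4 : (M : LaurentSeries Q̄) = algebraMap Q̄ (LaurentSeries Q̄) (M : Q̄) := by
      rw [map_natCast]
    rw [h3, map_mul, map_natCast, smul_eq_algebraMap_mul, h4, ← mul_assoc, ← map_mul,
      inv_mul_cancel₀ hM0', map_one, one_mul]
  show coeffEmb Q̄ ((g : F) : LaurentSeries ℚ) ∈ Submodule.span Q̄ (Set.range fun y : chartAlg N ℓ S =>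
      coeffEmb Q̄ ((y : F) : LaurentSeries ℚ))
  rw [h2]
  exact Submodule.smul_mem _ _ (Submodule.subset_span ⟨⟨_, hM⟩, rfl⟩)

end Fermat.Agent.S37.RIR.GN

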